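/-
S59 moonshot, cell B1 (WALL-q in W-form), leaf FIN-DOWN of the NEAT package (helper732),
part 1: PDIV-DOWN along the inclusion `α : k(X₀(M)) → k(X₀(Mℓ))`.

`k` algebraically closed, the primes dividing `M ℓ` invertible in `k`, `ℓ ∤ M` prime,
`gcd (ℓ + 1, p) = 1`.  If `h ∈ k(X₀(M))` has `p ∣ ord_w h` at every place `w` of `k(X₀(Mℓ))`,
then `p ∣ ord_Q h` at every place `Q` of `k(X₀(M))`:
`(ℓ + 1) · ord_Q h = ord_Q (N h) = ∑_{w | Q} ord_w h` (local norm formula, `Lib/FFSep280`).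
-/
import Fermat.Agent.Ribet.H376.PDivKnorm

set_option autoImplicit false
set_option maxHeartbeats 400000
set_option linter.style.haveILetI false
set_option linter.unusedSectionVars false

noncomputable section

namespace Fermat.Agent.Ribet.H732.FinDown

open AlgebraicCurve IntermediateField ModularCurve HahnSeries
open Fermat.Agent.S28.H626 Fermat.Agent.S37.H157 Fermat.Agent.Ribet.H376
open Fermat.Agent.Ribet.H884

section Abstract

variable {K F F' : Type*} [Field K] [Field F] [Field F'] [Algebra K F] [Algebra K F']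
  [Algebra F F'] [IsScalarTower K F F'] [FiniteDimensional F F'] [Algebra.IsSeparable F F']
  [IsAlgClosed K]

/-- **PDIV-DOWN, abstract form**: divisibility of all orders by `p` descends along a finite
separable extension of degree prime to `p`. -/
theorem dvd_ord_of_dvd_ord_algebraMap732 {x' : F'} (hx' : Transcendental K x')
    [FiniteDimensional K⟮x'⟯ F'] (p : ℕ)
    (hcop : Nat.Coprime (Module.finrank F F') p) {h : F} (h0 : h ≠ 0)
    (hdiv : ∀ w : Place K F', (p : ℤ) ∣ w.ord (algebraMap F F' h)) (Q : Place K F) :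
    (p : ℤ) ∣ Q.ord h := by
  classical
  haveI : HasPrincipalDivisors K F' :=
    Fermat.Agent.Lib.RR.H560.hasPrincipalDivisors (K := K) x' hx'
  have hh : algebraMap F F' h ≠ 0 := fun hz => h0 ((map_eq_zero (algebraMap F F')).mp hz)
  have hsum := Fermat.Agent.Lib.FFSep280.sum_ord_eq_ord_norm_of_isAlgClosed hx' Q (Q.fiber F')
    (fun w => Place.mem_fiber) (algebraMap F F' h) hh
  rw [Algebra.norm_algebraMap, Fermat.Agent.Lib.RR.ord_pow] at hsum
  have h1 : (p : ℤ) ∣ (Module.finrank F F' : ℤ) * Q.ord h := by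
    rw [← hsum]
    exact Finset.dvd_sum fun w _ => hdiv w
  have h2 : IsCoprime (p : ℤ) (Module.finrank F F' : ℤ) :=
    (Nat.isCoprime_iff_coprime.mpr hcop).symm
  exact h2.dvd_of_dvd_mul_left h1

end Abstract

section Modular

variable {k : Type} [Field k] [IsAlgClosed k] {p M ℓ : ℕ} [NeZero M] [NeZero ℓ]

/-- **PDIV-DOWN along `α`** for the modular function fields. -/
theorem dvd_ord_down_alpha732 (hℓ : ℓ.Prime) (hℓM : ¬ ℓ ∣ M)
    (hchar : ∀ r : ℕ, r.Prime → r ∣ M * ℓ → ((r : ℕ) : k) ≠ 0)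
    (hcop : Nat.Coprime (ℓ + 1) p) {h : modularFunctionFieldFullC k M} (h0 : h ≠ 0)
    (hdiv : ∀ w : Place k (modularFunctionFieldFullC k (M * ℓ)),
      (p : ℤ) ∣ w.ord (alphaAlg k M ℓ h))
    (Q : Place k (modularFunctionFieldFullC k M)) : (p : ℤ) ∣ Q.ord h := by
  have hℓk : ((ℓ : ℕ) : k) ≠ 0 := hchar ℓ hℓ (Dvd.intro_left M rfl)
  haveI : NeZero ((ℓ : ℕ) : k) := ⟨hℓk⟩
  obtain ⟨ζ, hζ⟩ := exists_primitiveRoot_unit k ℓ hℓ.ne_zero
  letI := algIncl k M ℓ
  haveI : IsScalarTower k ↥(modularFunctionFieldFullC k M)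
      ↥(modularFunctionFieldFullC k (M * ℓ)) := isScalarTower_algIncl k M ℓ
  have hfr := finrank_algInclC k M ℓ hℓ hℓM hchar
  haveI : FiniteDimensional ↥(modularFunctionFieldFullC k M)
      ↥(modularFunctionFieldFullC k (M * ℓ)) := finiteDimensional_algIncl hfr
  haveI : Algebra.IsSeparable ↥(modularFunctionFieldFullC k M)
      ↥(modularFunctionFieldFullC k (M * ℓ)) := isSeparable_algIncl hℓ hℓM hchar ζ hζ
  obtain ⟨hx', hfin'⟩ := Fermat.Agent.S18.H65.modFinite' k (M * ℓ) hchar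
  haveI := hfin'
  refine dvd_ord_of_dvd_ord_algebraMap732 hx' p (by rw [hfr]; exact hcop) h0 ?_ Q
  intro w
  exact hdiv w

/-- **PDIV-DOWN along `α`, series form**: a `PDivSeries` of level `M ℓ` which lies in
`k(X₀(M))` is a `PDivSeries` of level `M`. -/
theorem pDivSeries_down_alpha732 (hℓ : ℓ.Prime) (hℓM : ¬ ℓ ∣ M)
    (hchar : ∀ r : ℕ, r.Prime → r ∣ M * ℓ → ((r : ℕ) : k) ≠ 0)
    (hcop : Nat.Coprime (ℓ + 1) p) {r : LaurentSeries k}
    (hr : PDivSeries p (M * ℓ) r) (hmem : r ∈ modularFunctionFieldFullC k M) :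
    PDivSeries p M r := by
  obtain ⟨h', hh', h0', hdiv'⟩ := hr
  have e : alphaAlg k M ℓ ⟨r, hmem⟩ = h' := by
    apply Subtype.ext
    rw [hh']
    rfl
  refine ⟨⟨r, hmem⟩, rfl, ?_, ?_⟩
  · intro hz
    apply h0'
    rw [← e, hz, map_zero]
  · intro Q
    refine dvd_ord_down_alpha732 hℓ hℓM hchar hcop ?_ ?_ Q
    · intro hz
      apply h0'
      rw [← e, hz, map_zero]
    · intro w
      rw [e]
      exact hdiv' w

end Modular

end Fermat.Agent.Ribet.H732.FinDown

end
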