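/-
S59 moonshot, cell B1 (WALL-q in W-form), leaf FIN-DOWN of the NEAT package (helper732),
part 2: PDIV-DOWN along `β : k(X₀(M)) → k(X₀(Mℓ))`, `h ↦ h(t^ℓ)`.

The swap `W : F' → k((t))` of `S37.H157` (`W y = y(t^ℓ)` for `y ∈ F`, `W (j(t^ℓ)) = j`) has its
image in `F'`, so it is a `k`-endomorphism `σ` of `F' = k(X₀(Mℓ))` with `σ (β h) = α h`.
Hence `ord_w (α h) = e · ord_{w ∘ σ} (β h)`, and PDIV-DOWN along `β` follows from PDIV-DOWN
along `α` (`FinDownAlpha.lean`).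
-/
import Fermat.Agent.Ribet.H732.FinDownAlpha

set_option autoImplicit false
set_option maxHeartbeats 400000
set_option linter.style.haveILetI false
set_option linter.unusedSectionVars false

noncomputable section

namespace Fermat.Agent.Ribet.H732.FinDown

open AlgebraicCurve IntermediateField ModularCurve HahnSeries
open Fermat.Agent.S28.H626 Fermat.Agent.S37.H157 Fermat.Agent.Ribet.H376
open Fermat.Agent.Ribet.H884

section Swap

variable {K : Type*} [Field K] {N ℓ : ℕ} [NeZero N] [NeZero ℓ]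
variable {Φ : Polynomial (Polynomial ℤ)} (hℓ : ℓ.Prime) (hℓN : ¬ ℓ ∣ N)
  (H : HasModPolys K (N * ℓ)) (hΦ : IsModPoly ℓ Φ)
  (hdeg : (minpoly ↥(modularFunctionFieldFullC K N) (jd K ℓ)).natDegree = ℓ + 1)

/-- The lift to the simple extension `F(j(t^ℓ))` takes its values in `F'`. -/
theorem liftSimple_mem732 (x : LaurentSeries K)
    (hx : x ∈ (↥(modularFunctionFieldFullC K N))⟮jd K ℓ⟯) :
    liftSimple (isIntegral_jdl (K := K) (N := N) hΦ) (baseHom K N ℓ) (jqModC K)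
        (eval₂_baseHom_minpoly hΦ hdeg) ⟨x, hx⟩
      ∈ modularFunctionFieldFullC K (N * ℓ) := by
  set W := liftSimple (isIntegral_jdl (K := K) (N := N) hΦ) (baseHom K N ℓ) (jqModC K)
    (eval₂_baseHom_minpoly hΦ hdeg) with hW
  induction hx using IntermediateField.adjoin_induction with
  | mem x hx =>
    rw [Set.mem_singleton_iff] at hx
    subst hx
    have e : (⟨jd K ℓ, subset_adjoin _ _ (Set.mem_singleton _)⟩ :
        ↥(↥(modularFunctionFieldFullC K N))⟮jd K ℓ⟯)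
        = AdjoinSimple.gen ↥(modularFunctionFieldFullC K N) (jd K ℓ) := Subtype.ext rfl
    rw [e, hW, liftSimple_gen]
    exact jqModC_mem_full K (N * ℓ)
  | algebraMap a =>
    have e : (⟨algebraMap ↥(modularFunctionFieldFullC K N) (LaurentSeries K) a,
        IntermediateField.algebraMap_mem _ a⟩ : ↥(↥(modularFunctionFieldFullC K N))⟮jd K ℓ⟯)
        = algebraMap ↥(modularFunctionFieldFullC K N)
            ↥(↥(modularFunctionFieldFullC K N))⟮jd K ℓ⟯ a := Subtype.ext rfl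
    rw [e, hW, liftSimple_algebraMap, baseHom_apply]
    exact qExpand_mem_full_mul K N ℓ a.2
  | add x y hx hy ihx ihy =>
    have e : (⟨x + y, add_mem hx hy⟩ : ↥(↥(modularFunctionFieldFullC K N))⟮jd K ℓ⟯)
        = ⟨x, hx⟩ + ⟨y, hy⟩ := rfl
    rw [e, map_add]
    exact add_mem ihx ihy
  | inv x hx ihx =>
    have e : (⟨x⁻¹, inv_mem hx⟩ : ↥(↥(modularFunctionFieldFullC K N))⟮jd K ℓ⟯)
        = (⟨x, hx⟩ : ↥(↥(modularFunctionFieldFullC K N))⟮jd K ℓ⟯)⁻¹ := rfl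
    rw [e, map_inv₀]
    exact inv_mem ihx
  | mul x y hx hy ihx ihy =>
    have e : (⟨x * y, mul_mem hx hy⟩ : ↥(↥(modularFunctionFieldFullC K N))⟮jd K ℓ⟯)
        = ⟨x, hx⟩ * ⟨y, hy⟩ := rfl
    rw [e, map_mul]
    exact mul_mem ihx ihy

/-- The swap takes its values in `F'`. -/
theorem swapHom_mem732 (x : modularFunctionFieldFullC K (N * ℓ)) :
    swapHom hℓ hℓN H hΦ hdeg x ∈ modularFunctionFieldFullC K (N * ℓ) :=
  liftSimple_mem732 hΦ hdeg x.1 (full_mul_le_adjoin_jdl hℓ hℓN H x.1 x.2)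

/-- The swap as a `K`-algebra endomorphism of `F' = K(X₀(Nℓ))`. -/
def swapEnd732 : ↥(modularFunctionFieldFullC K (N * ℓ)) →ₐ[K]
    ↥(modularFunctionFieldFullC K (N * ℓ)) where
  toFun x := ⟨swapHom hℓ hℓN H hΦ hdeg x, swapHom_mem732 hℓ hℓN H hΦ hdeg x⟩
  map_one' := Subtype.ext (map_one _)
  map_mul' _ _ := Subtype.ext (map_mul _ _ _)
  map_zero' := Subtype.ext (map_zero _)
  map_add' _ _ := Subtype.ext (map_add _ _ _)
  commutes' c := by
    apply Subtype.ext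
    show swapHom hℓ hℓN H hΦ hdeg (algebraMap K ↥(modularFunctionFieldFullC K (N * ℓ)) c)
      = algebraMap K (LaurentSeries K) c
    have h1 : (algebraMap K ↥(modularFunctionFieldFullC K (N * ℓ)) c)
        = ⟨algebraMap K (LaurentSeries K) c,
            (modularFunctionFieldFullC K (N * ℓ)).algebraMap_mem c⟩ := Subtype.ext rfl
    rw [h1, swapHom_of_mem hℓ hℓN H hΦ hdeg _
      ((modularFunctionFieldFullC K N).algebraMap_mem c),
      algebraMap_laurentSeries_eq_single, qExpand_single, mul_zero]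

theorem coe_swapEnd732 (x : modularFunctionFieldFullC K (N * ℓ)) :
    ((swapEnd732 hℓ hℓN H hΦ hdeg x : modularFunctionFieldFullC K (N * ℓ)) : LaurentSeries K)
      = swapHom hℓ hℓN H hΦ hdeg x := rfl

/-- `σ ∘ β = α`. -/
theorem swapEnd_betaAlg732 (y : modularFunctionFieldFullC K N) :
    swapEnd732 hℓ hℓN H hΦ hdeg (betaAlg K N ℓ y) = alphaAlg K N ℓ y := by
  apply Subtype.ext
  rw [coe_swapEnd732]
  show swapHom hℓ hℓN H hΦ hdeg (betaHom K N ℓ y) = _
  rw [swapHom_betaHom]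
  rfl

end Swap

section Modular

variable {k : Type} [Field k] [IsAlgClosed k] {p M ℓ : ℕ} [NeZero M] [NeZero ℓ]

/-- **PDIV-DOWN along `β`** for the modular function fields. -/
theorem dvd_ord_down_beta732 (hℓ : ℓ.Prime) (hℓM : ¬ ℓ ∣ M)
    (hchar : ∀ r : ℕ, r.Prime → r ∣ M * ℓ → ((r : ℕ) : k) ≠ 0)
    (hcop : Nat.Coprime (ℓ + 1) p) {h : modularFunctionFieldFullC k M} (h0 : h ≠ 0)
    (hdiv : ∀ w : Place k (modularFunctionFieldFullC k (M * ℓ)),
      (p : ℤ) ∣ w.ord (betaAlg k M ℓ h))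
    (Q : Place k (modularFunctionFieldFullC k M)) : (p : ℤ) ∣ Q.ord h := by
  have H := hasModPolysC k (M * ℓ) hchar
  obtain ⟨-, Φ, hΦ⟩ := H ℓ hℓ (Dvd.intro_left M rfl)
  have hfr := finrank_algInclC k M ℓ hℓ hℓM hchar
  have hdeg := natDegree_minpoly_jdl hℓ hℓM H hΦ hfr
  obtain ⟨hx', hfin'⟩ := Fermat.Agent.S18.H65.modFinite' k (M * ℓ) hchar
  haveI := hfin'
  have hσ : (swapEnd732 hℓ hℓM H hΦ hdeg).toRingHom.IsIntegral :=
    isIntegral_of_functionFieldC (swapEnd732 hℓ hℓM H hΦ hdeg) _ hx' _ hx'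
  refine dvd_ord_down_alpha732 hℓ hℓM hchar hcop h0 ?_ Q
  intro w
  rw [← swapEnd_betaAlg732 hℓ hℓM H hΦ hdeg h]
  exact dvd_ord_along (swapEnd732 hℓ hℓM H hΦ hdeg) hσ w (hdiv _)

/-- **PDIV-DOWN along `β`, series form**: if `r(t^ℓ)` is a `PDivSeries` of level `M ℓ` and `r`
lies in `k(X₀(M))`, then `r` is a `PDivSeries` of level `M`. -/
theorem pDivSeries_down_beta732 (hℓ : ℓ.Prime) (hℓM : ¬ ℓ ∣ M)
    (hchar : ∀ r : ℕ, r.Prime → r ∣ M * ℓ → ((r : ℕ) : k) ≠ 0)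
    (hcop : Nat.Coprime (ℓ + 1) p) {r : LaurentSeries k}
    (hr : PDivSeries p (M * ℓ) (qExpand k ℓ r)) (hmem : r ∈ modularFunctionFieldFullC k M) :
    PDivSeries p M r := by
  obtain ⟨h', hh', h0', hdiv'⟩ := hr
  have e : betaAlg k M ℓ ⟨r, hmem⟩ = h' := by
    apply Subtype.ext
    rw [hh']
    rfl
  have h0 : (⟨r, hmem⟩ : modularFunctionFieldFullC k M) ≠ 0 := by
    intro hz
    apply h0'
    rw [← e, hz, map_zero]
  refine ⟨⟨r, hmem⟩, rfl, h0, ?_⟩
  intro Q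
  refine dvd_ord_down_beta732 hℓ hℓM hchar hcop h0 ?_ Q
  intro w
  rw [e]
  exact hdiv' w

end Modular

end Fermat.Agent.Ribet.H732.FinDown

end
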