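/-
S59 moonshot, cell B1 (WALL-q in W-form), leaf FIN-DOWN of the NEAT package of helper158
(`origin/helper158 : S59/H158/NeatTargets.lean`), FUNCTION-LEVEL CORE  (helper732).

`q ≠ r` primes, `q ∤ M'`, `r ∤ M'`, `gcd (r + 1, p) = 1`, `A` over `q`, `k = kA A`.

* `finGenQ_of_mem_finPartQ732` (**GEN-Q**): membership in `finPartQ` can be tested on ANY Kummer
  generator (twin of `H669.genIndep_of` for the wall at `q`);
* `finGenQ_down_alpha732` : `f ∈ FF (q M')`, `g ∈ FF (q (r M'))` with the SAME `t`-expansion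
  (`g = α f`): `FinGenQ p q (r M') A g → FinGenQ p q M' A f`;
* `finGenQ_down_beta732`  : the same for `g = β f`, i.e. `g(t) = f(t^r)`;
* `finDown_of_kummerPull732` : **FIN-DOWN** for every additive `π : J₀(q M') → J₀(q (r M'))` such
  that a Kummer generator `f` of `x` gives a Kummer generator `α f` or `β f` of `π x`.

On `C∞` the reduction of `α f` is the reduction of `f`, on `C₀` it is `(red₀ f)(t^r)`
(`w ∘ α = β ∘ w`); for `β f` the roles are exchanged.  So each case needs PDIV-DOWN along `α`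
AND along `β` (`FinDownAlpha.lean`, `FinDownBeta.lean`).
-/
import Fermat.Agent.Ribet.H732.FinDownBeta
import Fermat.Agent.Ribet.H669.Gen
import Fermat.Agent.Ribet.H523.Q3Red
import Fermat.Agent.Ribet.H223.HeckeGaussRed
import Fermat.Agent.Ribet.H997.RedField

set_option autoImplicit false
set_option synthInstance.maxHeartbeats 400000
set_option maxHeartbeats 1000000
set_option linter.style.haveILetI false
set_option linter.unusedSectionVars false

noncomputable section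

namespace Fermat.Agent.Ribet.H732.FinDown

open AlgebraicCurve ModularCurve HahnSeries
open Fermat.Agent.S24 Fermat.Agent.A2.H708 Fermat.Agent.A2.H528
open Fermat.Agent.Ribet.Spec Fermat.Agent.Ribet.H944.Wall Fermat.Agent.Ribet.H884
open Fermat.Agent.Ribet.H158.WallQ

/-! ## Small tools -/

/-- The Fricke involution only depends on the `t`-expansion (level cast). -/
theorem wF_coe_congr732 {N N' : ℕ} [NeZero N] [NeZero N'] (h : N = N') (f : FF N) (f' : FF N')
    (hf : (f : LaurentSeries Kbar) = (f' : LaurentSeries Kbar)) :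
    ((wF N f : FF N) : LaurentSeries Kbar) = ((wF N' f' : FF N') : LaurentSeries Kbar) := by
  subst h
  have e : f = f' := Subtype.ext hf
  rw [e]

/-- `PDivSeries` only depends on the level as a number. -/
theorem pDivSeries_congr732 {p N N' : ℕ} (h : N = N') {k : Type} [Field k]
    {r : LaurentSeries k} (hr : PDivSeries p N r) : PDivSeries p N' r := by
  subst h
  exact hr

/-- Nonzero constants are `PDivSeries`. -/
theorem pDivSeries_C732 (p N : ℕ) {k : Type} [Field k] {c : k} (hc : c ≠ 0) :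
    PDivSeries p N (HahnSeries.C c : LaurentSeries k) := by
  refine ⟨algebraMap k (modularFunctionFieldFullC k N) c, ?_, ?_, fun Q => ?_⟩
  · show algebraMap k (LaurentSeries k) c = HahnSeries.C c
    rw [algebraMap_laurentSeries_eq_single]
    rfl
  · exact fun h0 => hc ((map_eq_zero _).mp h0)
  · rw [Fermat.Agent.Lib.RR.ord_algebraMap]
    exact dvd_zero _

/-- `PDivSeries` is insensitive to a nonzero constant factor. -/
theorem pDivSeries_of_C_mul732 {p N : ℕ} {k : Type} [Field k] {c : k} (hc : c ≠ 0)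
    {r : LaurentSeries k} (h : PDivSeries p N (HahnSeries.C c * r)) : PDivSeries p N r := by
  have h1 : r = HahnSeries.C c⁻¹ * (HahnSeries.C c * r) := by
    rw [← mul_assoc, ← map_mul, inv_mul_cancel₀ hc, map_one, one_mul]
  rw [h1]
  exact (pDivSeries_C732 p N (inv_ne_zero hc)).mul h

/-! ## GEN-Q -/

section GenQ

variable {p q M' : ℕ} [NeZero M'] [NeZero q] [NeZero (q * M')] {A : ValuationSubring Kbar}

/-- `FinGenQ` is insensitive to a factor `c · g ^ p`. -/
theorem finGenQ_const_mul_pow732 (hq : q.Prime) (hqM : ¬ q ∣ M') (hA : A.LiesOverPrime q)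
    {f₀ g : FF (q * M')} {c : Kbar} (hc : c ≠ 0) (hg : g ≠ 0) (h : FinGenQ p q M' A f₀) :
    FinGenQ p q M' A (algebraMap Kbar (FF (q * M')) c * (f₀ * g ^ p)) := by
  obtain ⟨r₁, r₂, h1, h2, h3, h4⟩ := h
  obtain ⟨⟨s₁, hs₁⟩, ⟨s₂, hs₂⟩⟩ := Fermat.Agent.Ribet.H997.redExists q (q * M') hq A hA g hg
  have k₁ := Fermat.Agent.Ribet.H997.redField q M' hq hqM A hA g s₁ (Or.inl hs₁)
  have k₂ := Fermat.Agent.Ribet.H997.redField q M' hq hqM A hA g s₂ (Or.inr hs₂)
  exact ⟨r₁ * s₁ ^ p, r₂ * s₂ ^ p,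
    Fermat.Agent.Ribet.H669.isRedInf_const_mul (h1.mul (Fermat.Agent.Ribet.H669.isRedInf_pow hs₁ p)) hc,
    Fermat.Agent.Ribet.H669.isRedZero_const_mul
      (h2.mul (Fermat.Agent.Ribet.H669.isRedZero_pow hs₂ p)) hc,
    h3.mul (Fermat.Agent.Ribet.H669.pDivSeries_pow hs₁.ne_zero k₁),
    h4.mul (Fermat.Agent.Ribet.H669.pDivSeries_pow (IsRedInf.ne_zero hs₂) k₂)⟩

/-- **GEN-Q**: every Kummer generator of a class of `finPartQ` has slopes `0`. -/
theorem finGenQ_of_mem_finPartQ732 (hq : q.Prime) (hqM : ¬ q ∣ M') (hA : A.LiesOverPrime q)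
    {x : JZero (q * M')} (hx : x ∈ finPartQ p q M' A) {f : FF (q * M')}
    (hf : IsKummerGen (q * M') p f x) : FinGenQ p q M' A f := by
  obtain ⟨f₀, hf₀, hF⟩ := Fermat.Agent.Ribet.H523.Q3.finClosedQ p q M' A hx
  obtain ⟨c, g, hc, hg, rfl⟩ := Fermat.Agent.Ribet.H669.exists_eq_const_mul_pow hf hf₀
  exact finGenQ_const_mul_pow732 hq hqM hA hc hg hF

end GenQ

/-! ## FIN-DOWN on Kummer generators -/

section Down

variable {p q r M' : ℕ} [NeZero M'] [NeZero q] [NeZero r] [NeZero (q * M')] [NeZero (r * M')]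
  [NeZero (q * (r * M'))] {A : ValuationSubring Kbar}

/-- The primes dividing `M' r` are invertible in the residue field of `A` (`A` over `q`). -/
theorem natCast_ne_zero732 (hq : q.Prime) (hr : r.Prime) (hqr : q ≠ r) (hqM : ¬ q ∣ M')
    (hA : A.LiesOverPrime q) :
    ∀ s : ℕ, s.Prime → s ∣ M' * r → ((s : ℕ) : kA A) ≠ 0 := by
  obtain ⟨-, hchar⟩ := Fermat.Agent.Ribet.H939.resField q hq A hA
  haveI := hchar
  intro s hs hsd h0
  have h1 : q ∣ s := (CharP.cast_eq_zero_iff (kA A) q s).mp h0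
  have h2 : q = s := (Nat.prime_dvd_prime_iff_eq hq hs).mp h1
  subst h2
  rcases (Nat.Prime.dvd_mul hq).mp hsd with h3 | h3
  · exact hqM h3
  · exact hqr ((Nat.prime_dvd_prime_iff_eq hq hr).mp h3)

/-- **FIN-DOWN along `α`** (same `t`-expansion). -/
theorem finGenQ_down_alpha732 (hq : q.Prime) (hr : r.Prime) (hqr : q ≠ r) (hqM : ¬ q ∣ M')
    (hrM : ¬ r ∣ M') (hcop : Nat.Coprime (r + 1) p) (hA : A.LiesOverPrime q)
    {f : FF (q * M')} {g : FF (q * (r * M'))} (hf0 : f ≠ 0)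
    (hfg : (g : LaurentSeries Kbar) = (f : LaurentSeries Kbar))
    (hg : FinGenQ p q (r * M') A g) : FinGenQ p q M' A f := by
  obtain ⟨hAC, -⟩ := Fermat.Agent.Ribet.H939.resField q hq A hA
  haveI := hAC
  have hchar := natCast_ne_zero732 (M' := M') hq hr hqr hqM hA
  obtain ⟨ρ₁, ρ₂, h1, h2, hP1, hP2⟩ := hg
  -- the component `C∞`
  have h1' : IsRedInf (q * M') A f ρ₁ :=
    Fermat.Agent.Ribet.H223.M6a.isRedInf_congr hfg.symm h1
  obtain ⟨a₁, ha₁⟩ := Fermat.Agent.Ribet.H997.redField q M' hq hqM A hA f ρ₁ (Or.inl h1')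
  have hm₁ : ρ₁ ∈ modularFunctionFieldFullC (kA A) M' := ha₁ ▸ a₁.2
  have hQ1 : PDivSeries p M' ρ₁ :=
    pDivSeries_down_alpha732 hr hrM hchar hcop
      (pDivSeries_congr732 (Nat.mul_comm r M') hP1) hm₁
  -- the component `C₀`
  obtain ⟨ρ₀, h0⟩ := (Fermat.Agent.Ribet.H997.redExists q (q * M') hq A hA f hf0).2
  have h0α : IsRedZero (q * M' * r) A (heckeAlphaBar Kbar (q * M') r f)
      (qExpand (kA A) r ρ₀) := Fermat.Agent.Ribet.H223.M6a.isRedZero_alpha h0
  have hlev : q * M' * r = q * (r * M') := by ring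
  have hser : ((heckeAlphaBar Kbar (q * M') r f : FF (q * M' * r)) : LaurentSeries Kbar)
      = (g : LaurentSeries Kbar) := by
    rw [coe_heckeAlphaBar, hfg]
  have h0g : IsRedInf (q * (r * M')) A (wF (q * (r * M')) g) (qExpand (kA A) r ρ₀) :=
    Fermat.Agent.Ribet.H223.M6a.isRedInf_congr
      (wF_coe_congr732 hlev _ _ hser).symm h0α
  obtain ⟨c, hc, hc2⟩ := Fermat.Agent.Ribet.H997.isRedInf_unique h0g h2
  obtain ⟨a₀, ha₀⟩ := Fermat.Agent.Ribet.H997.redField q M' hq hqM A hA f ρ₀ (Or.inr h0)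
  have hm₀ : ρ₀ ∈ modularFunctionFieldFullC (kA A) M' := ha₀ ▸ a₀.2
  have hQ0 : PDivSeries p M' ρ₀ := by
    refine pDivSeries_down_beta732 hr hrM hchar hcop ?_ hm₀
    refine pDivSeries_congr732 (Nat.mul_comm r M') (pDivSeries_of_C_mul732 hc ?_)
    rw [← hc2]
    exact hP2
  exact ⟨ρ₁, ρ₀, h1', h0, hQ1, hQ0⟩

/-- **FIN-DOWN along `β`** (`g(t) = f(t^r)`). -/
theorem finGenQ_down_beta732 (hq : q.Prime) (hr : r.Prime) (hqr : q ≠ r) (hqM : ¬ q ∣ M')
    (hrM : ¬ r ∣ M') (hcop : Nat.Coprime (r + 1) p) (hA : A.LiesOverPrime q)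
    {f : FF (q * M')} {g : FF (q * (r * M'))} (hf0 : f ≠ 0)
    (hfg : (g : LaurentSeries Kbar) = qExpand Kbar r (f : LaurentSeries Kbar))
    (hg : FinGenQ p q (r * M') A g) : FinGenQ p q M' A f := by
  obtain ⟨hAC, -⟩ := Fermat.Agent.Ribet.H939.resField q hq A hA
  haveI := hAC
  have hchar := natCast_ne_zero732 (M' := M') hq hr hqr hqM hA
  obtain ⟨ρ₁, ρ₂, h1, h2, hP1, hP2⟩ := hg
  -- the component `C∞`
  obtain ⟨ρ, hρ⟩ := (Fermat.Agent.Ribet.H997.redExists q (q * M') hq A hA f hf0).1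
  have hρg : IsRedInf (q * (r * M')) A g (qExpand (kA A) r ρ) :=
    Fermat.Agent.Ribet.H223.M6a.isRedInf_qExpand hfg hρ
  obtain ⟨c, hc, hc2⟩ := Fermat.Agent.Ribet.H997.isRedInf_unique hρg h1
  obtain ⟨a, ha⟩ := Fermat.Agent.Ribet.H997.redField q M' hq hqM A hA f ρ (Or.inl hρ)
  have hm : ρ ∈ modularFunctionFieldFullC (kA A) M' := ha ▸ a.2
  have hQ1 : PDivSeries p M' ρ := by
    refine pDivSeries_down_beta732 hr hrM hchar hcop ?_ hm
    refine pDivSeries_congr732 (Nat.mul_comm r M') (pDivSeries_of_C_mul732 hc ?_)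
    rw [← hc2]
    exact hP1
  -- the component `C₀`
  have hlev : q * M' * r = q * (r * M') := by ring
  have hser : ((heckeBetaBar Kbar (q * M') r f : FF (q * M' * r)) : LaurentSeries Kbar)
      = (g : LaurentSeries Kbar) := by
    rw [coe_heckeBetaBar, hfg]
  have hw : ((wF (q * (r * M')) g : FF (q * (r * M'))) : LaurentSeries Kbar)
      = ((wF (q * M') f : FF (q * M')) : LaurentSeries Kbar) := by
    rw [← wF_coe_congr732 hlev _ _ hser, Fermat.Agent.A2.H612.wF_heckeBetaBar,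
      coe_heckeAlphaBar]
  have h2' : IsRedZero (q * M') A f ρ₂ :=
    Fermat.Agent.Ribet.H223.M6a.isRedInf_congr hw.symm h2
  obtain ⟨a₂, ha₂⟩ := Fermat.Agent.Ribet.H997.redField q M' hq hqM A hA f ρ₂ (Or.inr h2')
  have hm₂ : ρ₂ ∈ modularFunctionFieldFullC (kA A) M' := ha₂ ▸ a₂.2
  have hQ2 : PDivSeries p M' ρ₂ :=
    pDivSeries_down_alpha732 hr hrM hchar hcop
      (pDivSeries_congr732 (Nat.mul_comm r M') hP2) hm₂
  exact ⟨ρ, ρ₂, hρ, h2', hQ1, hQ2⟩

/-- **FIN-DOWN** for a pull-back `π` which maps Kummer generators to Kummer generators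
(`α f` or `β f`). -/
theorem finDown_of_kummerPull732 (hq : q.Prime) (hr : r.Prime) (hqr : q ≠ r)
    (hqM : ¬ q ∣ M') (hrM : ¬ r ∣ M') (hcop : Nat.Coprime (r + 1) p)
    (hA : A.LiesOverPrime q) (π : JZero (q * M') → JZero (q * (r * M')))
    (hπ : ∀ (x : JZero (q * M')) (f : FF (q * M')), IsKummerGen (q * M') p f x →
      ∃ g : FF (q * (r * M')), IsKummerGen (q * (r * M')) p g (π x) ∧
        ((g : LaurentSeries Kbar) = (f : LaurentSeries Kbar) ∨
          (g : LaurentSeries Kbar) = qExpand Kbar r (f : LaurentSeries Kbar)))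
    (x : JZero (q * M')) (hx : p • x = 0) (hπx : π x ∈ finPartQ p q (r * M') A) :
    x ∈ finPartQ p q M' A := by
  have hqN : ¬ q ∣ r * M' := fun hd => by
    rcases (Nat.Prime.dvd_mul hq).mp hd with h | h
    · exact hqr ((Nat.prime_dvd_prime_iff_eq hq hr).mp h)
    · exact hqM h
  obtain ⟨f, hf⟩ := Fermat.Agent.Ribet.H884.exists_isKummerGen (N := q * M') p x hx
  obtain ⟨g, hgK, hg⟩ := hπ x f hf
  have hG : FinGenQ p q (r * M') A g := finGenQ_of_mem_finPartQ732 hq hqN hA hπx hgK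
  refine AddSubgroup.subset_closure ⟨f, hf, ?_⟩
  rcases hg with hg | hg
  · exact finGenQ_down_alpha732 hq hr hqr hqM hrM hcop hA hf.1 hg hG
  · exact finGenQ_down_beta732 hq hr hqr hqM hrM hcop hA hf.1 hg hG

end Down

end Fermat.Agent.Ribet.H732.FinDown

end
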